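/-
S43lib / Theta / Level  (helper8)  — Project H, brick THETA, part 1.

**A normalized eigenform of level `N` gives a normalized eigenform of every level `M`, `N ∣ M`**
(not necessarily squarefree), with the same coefficients at all `n` prime to `M / N`: at a prime `q` not
dividing the current level take the `q`-stabilisation (`S58lib.Stab.exists_stabilisation`), at a prime
dividing it the form itself at the smaller group.
-/
import Fermat.Agent.S58lib.Stab.Basic

set_option autoImplicit false
set_option linter.unusedSectionVars false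

noncomputable section

namespace Fermat.Agent.S43lib.Theta

open ModularFormClass CongruenceSubgroup Fermat.Agent.S58lib.Stab

/-- from level `N` to level `R = N * s` -/
theorem exists_eigenform_of_level_mul {N : ℕ} [NeZero N] (g : CuspForm (Gamma0 N) 2)
    (hg : g.IsNormalizedEigenform) :
    ∀ s : ℕ, s ≠ 0 → ∀ R : ℕ, R = N * s →
      ∃ g' : CuspForm (Gamma0 R) 2, g'.IsNormalizedEigenform ∧
        ∀ n : ℕ, n.Coprime s → qCoeff ⇑g' n = qCoeff ⇑g n := by
  intro s
  induction s using Nat.strong_induction_on with
  | _ s ih =>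
    intro hs0 R hR
    by_cases h1 : s = 1
    · subst h1
      subst hR
      refine ⟨restrictLevel N 1 2 g, ?_, fun n _ => rfl⟩
      exact isNormalizedEigenform_of_qCoeff_eq g _ hg (fun n => rfl)
        (fun p _ => by rw [mul_one])
    · have hq : (s.minFac).Prime := Nat.minFac_prime h1
      set q := s.minFac with hqdef
      obtain ⟨s', hs'⟩ : q ∣ s := Nat.minFac_dvd s
      have hs'0 : s' ≠ 0 := by
        rintro rfl
        exact hs0 (by rw [hs', mul_zero])
      have hlt : s' < s := by
        rw [hs']
        exact lt_mul_of_one_lt_left (Nat.pos_of_ne_zero hs'0) hq.one_lt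
      obtain ⟨g₁, hg₁, hc₁⟩ := ih s' hlt hs'0 (N * s') rfl
      haveI : NeZero (N * s') := ⟨Nat.mul_ne_zero (NeZero.ne N) hs'0⟩
      have hRR : R = N * s' * q := by
        rw [hR, hs']
        ring
      subst hRR
      have hcop : ∀ n : ℕ, n.Coprime s → n.Coprime q ∧ n.Coprime s' := fun n hn =>
        ⟨Nat.Coprime.coprime_dvd_right (Dvd.intro _ hs'.symm) hn,
          Nat.Coprime.coprime_dvd_right (Dvd.intro_left q hs'.symm) hn⟩
      by_cases hqR : q ∣ N * s'
      · -- `q` divides the level: the same form
        refine ⟨restrictLevel (N * s') q 2 g₁, ?_, fun n hn => ?_⟩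
        · refine isNormalizedEigenform_of_qCoeff_eq g₁ _ hg₁ (fun n => rfl) (fun p hp => ?_)
          constructor
          · intro h
            rcases (Nat.Prime.dvd_mul hp).1 h with h | h
            · exact h
            · rw [(Nat.prime_dvd_prime_iff_eq hp hq).1 h]
              exact hqR
          · intro h
            exact h.trans (Dvd.intro q rfl)
        · rw [qCoeff_restrictLevel, hc₁ n (hcop n hn).2]
      · -- `q` does not divide the level: stabilisation
        obtain ⟨g₂, hg₂, hc₂⟩ := exists_stabilisation hq hqR g₁ hg₁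
        exact ⟨g₂, hg₂, fun n hn => by rw [hc₂ n (hcop n hn).1, hc₁ n (hcop n hn).2]⟩

/-- **a normalized eigenform of level `N` at any level `M`, `N ∣ M`**: the same coefficients at all
primes not dividing `M`. -/
theorem exists_eigenform_of_dvd {N M : ℕ} [NeZero N] (hNM : N ∣ M) (hM : M ≠ 0)
    (g : CuspForm (Gamma0 N) 2) (hg : g.IsNormalizedEigenform) :
    ∃ g' : CuspForm (Gamma0 M) 2, g'.IsNormalizedEigenform ∧
      ∀ ℓ : ℕ, ℓ.Prime → ¬ ℓ ∣ M → qCoeff ⇑g' ℓ = qCoeff ⇑g ℓ := by
  obtain ⟨s, rfl⟩ := hNM
  have hs : s ≠ 0 := fun h => hM (by rw [h, mul_zero])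
  obtain ⟨g', hg', hc⟩ := exists_eigenform_of_level_mul g hg s hs (N * s) rfl
  refine ⟨g', hg', fun ℓ hℓ hℓM => hc ℓ ?_⟩
  exact (Nat.Prime.coprime_iff_not_dvd hℓ).2 fun h => hℓM (h.trans (Dvd.intro_left N rfl))

end Fermat.Agent.S43lib.Theta

end
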