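/-
S43lib / Theta / Main  (helper8)  — Project H, brick THETA.

**The residual Hecke character of the Frey representation at every level `M`, `N ∣ M`.**

`ρ̄ = E[p]` modular of level `N` (a normalized eigenform `f` of level `N`, `a_ℓ(f) ≡ a_ℓ(E)` modulo a maximal
ideal `𝔪 ∋ p` of `ℤ̄` at the good primes `ℓ ∤ N p`), `N ∣ M`, `S ⊇ {p} ∪ {primes of M}` finite, `k` a field
over `𝔽_p`:   there is a ring homomorphism `θ : heckeAlgebra M 2 S → k` with `θ (T_ℓ) = a_ℓ(E)` for all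
primes `ℓ ∉ S` which are good for the integral model `W`.

Proof.  `f` gives a normalized eigenform `f'` of level `M` with the same `a_ℓ`, `ℓ ∤ M` (`Theta/Level`); its
eigencharacter `𝕋 → ℤ̄ → ℤ̄/𝔪 =: K` (`S29lib.P.eigenChar`) sends `T_ℓ` to `a_ℓ(f) mod 𝔪`.  The values lie in
`𝔽_p ⊂ K`: `a_ℓ(f) mod 𝔪` is the trace of a Frobenius element at `ℓ` in the residual representation `ρ`
attached to `f'` (`S29lib.Z.coreStatement`), every element of `G_ℚ` acts through `ρ` as a power of a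
Frobenius element `φ` at a good prime `ℓ' ∉ S` (weak Chebotarev, `S31lib.WC.brickWC`), and
`tr ρ(φ)^j` is a polynomial in `tr ρ(φ) = a_ℓ'(E)`, `det ρ(φ) = ℓ'` (`S31lib.TC.trace_pow_eq`).
-/
import Fermat.Agent.S43lib.Theta.Level
import Fermat.Agent.S29lib.Z.Final
import Fermat.Agent.S29lib.P.Character
import Fermat.Agent.S31lib.WC.Export
import Fermat.Agent.S31lib.TC.PowTrace
import Fermat.Agent.Helper5.FrobExists
import Fermat.Prelude.Def_FLTPrelim_ModularRep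
import Fermat.Agent.S13lib.Node2.FreyDelta

set_option autoImplicit false
set_option linter.unusedSectionVars false
set_option linter.style.haveILetI false

noncomputable section

namespace Fermat.Agent.S43lib.Theta

open ModularFormClass CongruenceSubgroup CuspForm Polynomial
open Fermat.Agent.S29lib Fermat.Agent.S29lib.P Fermat.Agent.S29lib.Z Fermat.Agent.S31lib.TC

local notation "Qb" => AlgebraicClosure ℚ
local notation "GQ" => (AlgebraicClosure ℚ ≃ₐ[ℚ] AlgebraicClosure ℚ)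
local notation "Zb" => integralClosure ℤ ℂ

/-! ### traces in the prime field -/

section PrimeField

variable {p : ℕ} [Fact p.Prime] {K : Type} [Field K] [Algebra (ZMod p) K]

/-- integers lie in the prime field -/
theorem intCast_mem_range (n : ℤ) : (n : K) ∈ (algebraMap (ZMod p) K).range :=
  ⟨(n : ZMod p), map_intCast _ n⟩

/-- `powTr` of elements of the prime field lies in the prime field -/
theorem powTr_mem_range {t d : K} (ht : t ∈ (algebraMap (ZMod p) K).range)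
    (hd : d ∈ (algebraMap (ZMod p) K).range) (j : ℕ) :
    powTr t d j ∈ (algebraMap (ZMod p) K).range := by
  obtain ⟨t₀, rfl⟩ := ht
  obtain ⟨d₀, rfl⟩ := hd
  exact ⟨powTr t₀ d₀ j, map_powTr _ t₀ d₀ j⟩

end PrimeField

/-- **the Frobenius traces of a residual representation with `𝔽_p`-rational traces at almost all
Frobenius elements are `𝔽_p`-rational everywhere** -/
theorem trace_mem_range_of_frobenius {p : ℕ} [Fact p.Prime] {K : Type} [Field K]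
    [Algebra (ZMod p) K] (ρ : ResidualGaloisRep K) (S₀ : Finset ℕ) (t : ℕ → K)
    (hchar : ∀ (ℓ : ℕ), ℓ.Prime → ℓ ∉ S₀ →
      ∀ A : ValuationSubring Qb, A.LiesOverPrime ℓ → ∀ σ : GQ, A.IsFrobeniusAt σ ℓ →
        LinearMap.charpoly (ρ.ρ σ) = X ^ 2 - C (t ℓ) * X + C (ℓ : K))
    (ht : ∀ ℓ : ℕ, ℓ.Prime → ℓ ∉ S₀ → t ℓ ∈ (algebraMap (ZMod p) K).range) (σ : GQ) :
    LinearMap.trace K ρ.V (ρ.ρ σ) ∈ (algebraMap (ZMod p) K).range := by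
  obtain ⟨L, hL, hLρ⟩ := ρ.factorsThroughFiniteLevel
  obtain ⟨ℓ, A, φ, j, hℓ, hℓS, hA, hφ, hj⟩ := Fermat.Agent.S31lib.WC.brickWC S₀ L hL σ
  -- `ρ σ = ρ φ ^ j`
  have h1 : ρ.ρ ((φ ^ j)⁻¹ * σ) = 1 := by
    apply hLρ
    intro x hx
    rw [AlgEquiv.mul_apply, ← hj x hx]
    exact (φ ^ j).symm_apply_apply x
  have h2 : ρ.ρ σ = ρ.ρ φ ^ j := by
    have h3 : ρ.ρ σ = ρ.ρ (φ ^ j) * ρ.ρ ((φ ^ j)⁻¹ * σ) := by
      rw [← map_mul, mul_inv_cancel_left]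
    rw [h3, h1, mul_one, map_pow]
  rw [h2, trace_pow_eq ρ.finrank_eq (ρ.ρ φ) (hchar ℓ hℓ hℓS A hA φ hφ) j]
  exact powTr_mem_range (ht ℓ hℓ hℓS) ⟨((ℓ : ℕ) : ZMod p), map_natCast _ ℓ⟩ j

/-! ### the character -/

/-- **THETA**, explicit form. -/
theorem exists_theta (P : FreyPackage) {N M : ℕ} [NeZero N] [NeZero M] (hNM : N ∣ M)
    (S : Finset ℕ) (hpS : P.p ∈ S) (hMS : ∀ q : ℕ, q.Prime → q ∣ M → q ∈ S)
    (f : CuspForm (Gamma0 N) 2) (W : WeierstrassCurve ℤ) (𝔪 : Ideal Zb)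
    (hf : f.IsNormalizedEigenform) (hW0 : W.Δ ≠ 0) (h𝔪 : 𝔪.IsMaximal) (hp𝔪 : (P.p : Zb) ∈ 𝔪)
    (hcong : ∀ ℓ : ℕ, ℓ.Prime → W.IsGoodPrimeFor ℓ → ¬ ℓ ∣ N → ℓ ≠ P.p →
      ∃ a : Zb, (a : ℂ) = qCoeff f ℓ ∧ a - ((W.apOfModel ℓ : ℤ) : Zb) ∈ 𝔪)
    (k : Type) [Field k] [Algebra (ZMod P.p) k] :
    ∃ θ : CuspForm.heckeAlgebra M 2 (↑S : Set ℕ) →+* k,
      ∀ (ℓ : ℕ) (hℓ : ℓ.Prime) (hℓM : ¬ ℓ ∣ M) (hℓS : ℓ ∉ (↑S : Set ℕ)), W.IsGoodPrimeFor ℓ →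
        θ (CuspForm.heckeAlgebra.T hℓ hℓM hℓS) = ((W.apOfModel ℓ : ℤ) : k) := by
  classical
  haveI hpf : Fact P.p.Prime := ⟨P.pp⟩
  haveI := h𝔪
  -- the eigenform of level `M`
  obtain ⟨f', hf', hff'⟩ := exists_eigenform_of_dvd hNM (NeZero.ne M) f hf
  -- the residual representation
  obtain ⟨a, ha, ρ, -, hchar₀⟩ := coreStatement M f' hf' P.p P.pp 𝔪 hp𝔪
  have hchar : ∀ (ℓ : ℕ) (hℓ : ℓ.Prime), ¬ ℓ ∣ M * P.p →
      ∀ A : ValuationSubring Qb, A.LiesOverPrime ℓ → ∀ σ : GQ, A.IsFrobeniusAt σ ℓ →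
        LinearMap.charpoly (ρ.ρ σ) =
          X ^ 2 - C (Ideal.Quotient.mk 𝔪 (a ⟨ℓ, hℓ⟩)) * X + C (ℓ : Zb ⧸ 𝔪) :=
    fun ℓ hℓ h A hA σ hσ => hchar₀ ℓ hℓ h A hA σ hσ
  haveI hcharP : CharP (Zb ⧸ 𝔪) P.p := charP_quot 𝔪 P.p P.pp hp𝔪
  letI : Algebra (ZMod P.p) (Zb ⧸ 𝔪) := ZMod.algebra (Zb ⧸ 𝔪) P.p
  -- the finite set of primes to avoid
  set S₀ : Finset ℕ := S ∪ W.Δ.natAbs.primeFactors with hS₀
  have hgoodS₀ : ∀ ℓ : ℕ, ℓ.Prime → ℓ ∉ S₀ → W.IsGoodPrimeFor ℓ ∧ ¬ ℓ ∣ M ∧ ℓ ≠ P.p := by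
    intro ℓ hℓ hℓS₀
    rw [hS₀, Finset.mem_union, not_or] at hℓS₀
    refine ⟨fun hd => hℓS₀.2 ?_, fun hd => hℓS₀.1 (hMS ℓ hℓ hd), fun h => hℓS₀.1 (h ▸ hpS)⟩
    rw [Nat.mem_primeFactors]
    exact ⟨hℓ, Int.natCast_dvd.1 hd, Int.natAbs_ne_zero.2 hW0⟩
  -- the coefficients of `f'` at the good primes
  have hmk : ∀ (ℓ : ℕ) (hℓ : ℓ.Prime), W.IsGoodPrimeFor ℓ → ¬ ℓ ∣ M → ℓ ≠ P.p →
      Ideal.Quotient.mk 𝔪 (a ⟨ℓ, hℓ⟩) = ((W.apOfModel ℓ : ℤ) : Zb ⧸ 𝔪) := by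
    intro ℓ hℓ hgood hℓM hℓp
    obtain ⟨b, hb, hb𝔪⟩ := hcong ℓ hℓ hgood (fun h => hℓM (h.trans hNM)) hℓp
    have hab : a ⟨ℓ, hℓ⟩ = b := by
      apply Subtype.ext
      rw [ha ⟨ℓ, hℓ⟩, hb]
      exact hff' ℓ hℓ hℓM
    rw [hab, ← sub_eq_zero, ← map_intCast (Ideal.Quotient.mk 𝔪), ← map_sub]
    exact Ideal.Quotient.eq_zero_iff_mem.2 hb𝔪
  have hNMp : ∀ ℓ : ℕ, ℓ.Prime → ¬ ℓ ∣ M → ℓ ≠ P.p → ¬ ℓ ∣ M * P.p := by
    intro ℓ hℓ hℓM hℓp hd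
    rcases (Nat.Prime.dvd_mul hℓ).1 hd with h | h
    · exact hℓM h
    · exact hℓp ((Nat.prime_dvd_prime_iff_eq hℓ P.pp).1 h)
  -- all traces lie in the prime field
  have htr : ∀ σ : GQ, LinearMap.trace (Zb ⧸ 𝔪) ρ.V (ρ.ρ σ) ∈
      (algebraMap (ZMod P.p) (Zb ⧸ 𝔪)).range := by
    intro σ
    refine trace_mem_range_of_frobenius ρ S₀ (fun ℓ => ((W.apOfModel ℓ : ℤ) : Zb ⧸ 𝔪)) ?_
      (fun ℓ _ _ => intCast_mem_range _) σ
    intro ℓ hℓ hℓS₀ A hA τ hτ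
    obtain ⟨hgood, hℓM, hℓp⟩ := hgoodS₀ ℓ hℓ hℓS₀
    rw [hchar ℓ hℓ (hNMp ℓ hℓ hℓM hℓp) A hA τ hτ, hmk ℓ hℓ hgood hℓM hℓp]
  -- the coefficients of `f'` at all primes outside `S` lie in the prime field
  have hmem : ∀ (ℓ : ℕ) (hℓ : ℓ.Prime), ¬ ℓ ∣ M → ℓ ≠ P.p →
      Ideal.Quotient.mk 𝔪 (a ⟨ℓ, hℓ⟩) ∈ (algebraMap (ZMod P.p) (Zb ⧸ 𝔪)).range := by
    intro ℓ hℓ hℓM hℓp
    obtain ⟨A, τ, hA, hτ⟩ := Fermat.Agent.Helper5.exists_isFrobeniusAt ℓ hℓ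
    have h1 := trace_eq_of_charpoly ρ.finrank_eq (ρ.ρ τ) (hchar ℓ hℓ (hNMp ℓ hℓ hℓM hℓp) A hA τ hτ)
    rw [← h1]
    exact htr τ
  -- the eigencharacter
  let θ₀ : CuspForm.heckeAlgebra M 2 (↑S : Set ℕ) →+* (Zb ⧸ 𝔪) :=
    ((Ideal.Quotient.mk 𝔪).comp (eigenChar hf')).comp
      (Subalgebra.inclusion (CuspForm.heckeAlgebra_mono (Set.empty_subset (↑S : Set ℕ)))).toRingHom
  have hθ₀T : ∀ (ℓ : ℕ) (hℓ : ℓ.Prime) (hℓM : ¬ ℓ ∣ M) (hℓS : ℓ ∉ (↑S : Set ℕ)),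
      θ₀ (CuspForm.heckeAlgebra.T hℓ hℓM hℓS) = Ideal.Quotient.mk 𝔪 (a ⟨ℓ, hℓ⟩) := by
    intro ℓ hℓ hℓM hℓS
    show Ideal.Quotient.mk 𝔪 (eigenChar hf' _) = _
    congr 1
    apply Subtype.ext
    rw [coe_eigenChar, ha ⟨ℓ, hℓ⟩]
    show qCoeff ⇑(CuspForm.heckeTLin 2 hℓ hℓM f') 1 = _
    rw [Fermat.Agent.S29lib.P.heckeTLin_eq_smul hf' hℓ hℓM, Fermat.Agent.Helper8.qCoeff_smul,
      hf'.qCoeff_one, mul_one]
  -- the values lie in the prime field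
  have hrange : ∀ x : CuspForm.heckeAlgebra M 2 (↑S : Set ℕ),
      θ₀ x ∈ (algebraMap (ZMod P.p) (Zb ⧸ 𝔪)).range := by
    rintro ⟨x, hx⟩
    induction hx using Algebra.adjoin_induction with
    | mem T hT =>
      rcases hT with ⟨ℓ, hℓ, hℓM, hℓS, rfl⟩ | ⟨q, hqM, hq, hqS, rfl⟩
      · have hℓp : ℓ ≠ P.p := fun h => hℓS (h ▸ Finset.mem_coe.2 hpS)
        have := hθ₀T ℓ hℓ hℓM hℓS
        rw [show (⟨CuspForm.heckeTLin 2 hℓ hℓM, _⟩ : CuspForm.heckeAlgebra M 2 (↑S : Set ℕ)) =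
          CuspForm.heckeAlgebra.T hℓ hℓM hℓS from rfl, this]
        exact hmem ℓ hℓ hℓM hℓp
      · exact absurd (Finset.mem_coe.2 (hMS q hq hqM)) hqS
    | algebraMap z =>
      have : (⟨algebraMap ℤ _ z, Subalgebra.algebraMap_mem _ z⟩ :
          CuspForm.heckeAlgebra M 2 (↑S : Set ℕ)) = ((z : ℤ) : CuspForm.heckeAlgebra M 2 (↑S : Set ℕ)) := by
        apply Subtype.ext
        simp
      rw [this, map_intCast]
      exact intCast_mem_range z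
    | add x y hx hy ihx ihy =>
      have : (⟨x + y, add_mem hx hy⟩ : CuspForm.heckeAlgebra M 2 (↑S : Set ℕ)) =
          ⟨x, hx⟩ + ⟨y, hy⟩ := rfl
      rw [this, map_add]
      exact Subring.add_mem _ ihx ihy
    | mul x y hx hy ihx ihy =>
      have : (⟨x * y, mul_mem hx hy⟩ : CuspForm.heckeAlgebra M 2 (↑S : Set ℕ)) =
          ⟨x, hx⟩ * ⟨y, hy⟩ := rfl
      rw [this, map_mul]
      exact Subring.mul_mem _ ihx ihy
  -- corestriction to the prime field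
  have hinj : Function.Injective (algebraMap (ZMod P.p) (Zb ⧸ 𝔪)) :=
    (algebraMap (ZMod P.p) (Zb ⧸ 𝔪)).injective
  let e : ZMod P.p ≃+* (algebraMap (ZMod P.p) (Zb ⧸ 𝔪)).range :=
    RingEquiv.ofBijective (algebraMap (ZMod P.p) (Zb ⧸ 𝔪)).rangeRestrict
      ⟨fun x y h => hinj (congrArg Subtype.val h), (algebraMap (ZMod P.p) (Zb ⧸ 𝔪)).rangeRestrict_surjective⟩
  let θ₁ : CuspForm.heckeAlgebra M 2 (↑S : Set ℕ) →+* ZMod P.p :=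
    (e.symm : (algebraMap (ZMod P.p) (Zb ⧸ 𝔪)).range →+* ZMod P.p).comp
      (θ₀.codRestrict (algebraMap (ZMod P.p) (Zb ⧸ 𝔪)).range hrange)
  have hθ₁ : ∀ x, algebraMap (ZMod P.p) (Zb ⧸ 𝔪) (θ₁ x) = θ₀ x := by
    intro x
    have h1 : e (θ₁ x) = θ₀.codRestrict (algebraMap (ZMod P.p) (Zb ⧸ 𝔪)).range hrange x :=
      e.apply_symm_apply _
    exact congrArg Subtype.val h1
  refine ⟨(algebraMap (ZMod P.p) k).comp θ₁, fun ℓ hℓ hℓM hℓS hgood => ?_⟩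
  have hℓp : ℓ ≠ P.p := fun h => hℓS (h ▸ Finset.mem_coe.2 hpS)
  have h2 : θ₁ (CuspForm.heckeAlgebra.T hℓ hℓM hℓS) = ((W.apOfModel ℓ : ℤ) : ZMod P.p) := by
    apply hinj
    rw [hθ₁, hθ₀T, hmk ℓ hℓ hgood hℓM hℓp, map_intCast]
  rw [RingHom.comp_apply, h2, map_intCast]

/-- the discriminant of an integral model of the Frey curve does not vanish -/
theorem Δ_ne_zero_of_isIntegralModelOf (P : FreyPackage) {W : WeierstrassCurve ℤ}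
    (hW : W.IsIntegralModelOf P.freyCurve) : W.Δ ≠ 0 := by
  obtain ⟨C, hC⟩ := hW
  have hΔq : (W.map (Int.castRingHom ℚ) : WeierstrassCurve ℚ).Δ ≠ 0 := by
    rw [← hC, WeierstrassCurve.variableChange_Δ]
    exact mul_ne_zero (pow_ne_zero _ (Units.ne_zero _)) (P.freyCurve.isUnit_Δ.ne_zero)
  intro h0
  apply hΔq
  rw [WeierstrassCurve.map_Δ, h0, _root_.map_zero]

/-- **THETA**: if `ρ̄ = E[p]` is modular of level `N ∣ M`, then for every finite set `S ⊇ {p} ∪ {primes of M}`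
and every field `k` over `𝔽_p` there are an integral model `W` of the Frey curve and a ring homomorphism
`θ : heckeAlgebra M 2 S → k` with `θ (T_ℓ) = a_ℓ(W)` at all primes `ℓ ∉ S` good for `W`. -/
theorem exists_theta_of_modularRepOfLevel (P : FreyPackage) {N M : ℕ} [NeZero M] (hNM : N ∣ M)
    (S : Finset ℕ) (hpS : P.p ∈ S) (hMS : ∀ q : ℕ, q.Prime → q ∣ M → q ∈ S)
    (hmod : P.ModularRepOfLevel N) (k : Type) [Field k] [Algebra (ZMod P.p) k] :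
    ∃ W : WeierstrassCurve ℤ, W.IsIntegralModelOf P.freyCurve ∧
      ∃ θ : CuspForm.heckeAlgebra M 2 (↑S : Set ℕ) →+* k,
        ∀ (ℓ : ℕ) (hℓ : ℓ.Prime) (hℓM : ¬ ℓ ∣ M) (hℓS : ℓ ∉ (↑S : Set ℕ)), W.IsGoodPrimeFor ℓ →
          θ (CuspForm.heckeAlgebra.T hℓ hℓM hℓS) = ((W.apOfModel ℓ : ℤ) : k) := by
  have hN : N ≠ 0 := by
    rintro rfl
    exact (NeZero.ne M) (zero_dvd_iff.1 hNM)
  haveI : NeZero N := ⟨hN⟩
  obtain ⟨f, W, 𝔪, hf, hW, h𝔪, hp𝔪, hcong⟩ := hmod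
  exact ⟨W, hW, exists_theta P hNM S hpS hMS f W 𝔪 hf (Δ_ne_zero_of_isIntegralModelOf P hW) h𝔪 hp𝔪
    hcong k⟩

end Fermat.Agent.S43lib.Theta

end
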